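import Fermat.Agent.S58.Defs
import Fermat.Agent.NEW.Normalize
import Fermat.Agent.S29.Bridge
import Fermat.Prelude.Def_CuspForm_Newforms

/-!
# S58, chapter RAISE: raising the level of a normalised eigenform

* `inclForm h : S₂(Γ₀(N₀)) → S₂(Γ₀(N'))` for `N₀ ∣ N'` (same function).
* `exists_raise` : a normalised eigenform of level `N₀` gives a normalised eigenform of level `N'` with the same `a_ℓ`, `ℓ ∤ N'`
  (the joint eigenspace of the good Hecke operators of level `N'` is non zero; `NEW.exists_normalized`).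
-/

set_option autoImplicit false

noncomputable section

namespace Fermat.Agent.S58

open CongruenceSubgroup ModularFormClass CuspForm
open scoped MatrixGroups

theorem Gamma0_le_of_dvd {N₀ N' : ℕ} (h : N₀ ∣ N') : Gamma0 N' ≤ Gamma0 N₀ := by
  intro γ hγ
  rw [Gamma0_mem] at hγ ⊢
  rw [ZMod.intCast_zmod_eq_zero_iff_dvd] at hγ ⊢
  exact (Int.natCast_dvd_natCast.2 h).trans hγ

/-- the inclusion `S₂(Γ₀(N₀)) ⊆ S₂(Γ₀(N'))`. -/
def inclForm {N₀ N' : ℕ} (h : N₀ ∣ N') (g : CuspForm (Gamma0 N₀) 2) : CuspForm (Gamma0 N') 2 where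
  toFun := g
  slash_action_eq' γ hγ :=
    SlashInvariantFormClass.slash_action_eq g γ (Subgroup.map_mono (Gamma0_le_of_dvd h) hγ)
  holo' := CuspFormClass.holo g
  zero_at_cusps' hc := CuspFormClass.zero_at_cusps g (hc.mono (Subgroup.map_mono (Gamma0_le_of_dvd h)))

@[simp] theorem coe_inclForm {N₀ N' : ℕ} (h : N₀ ∣ N') (g : CuspForm (Gamma0 N₀) 2) :
    ⇑(inclForm h g) = ⇑g := rfl

theorem exists_raise {N₀ N' : ℕ} [NeZero N₀] [NeZero N'] (h : N₀ ∣ N')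
    {g : CuspForm (Gamma0 N₀) 2} (hg : g.IsNormalizedEigenform) :
    ∃ g' : CuspForm (Gamma0 N') 2, g'.IsNormalizedEigenform ∧
      ∀ ℓ : ℕ, ℓ.Prime → ¬ ℓ ∣ N' → qCoeff g' ℓ = qCoeff g ℓ := by
  have h0 : inclForm h g ≠ 0 := by
    intro h1
    apply S29.ne_zero_of_eigenform hg
    apply DFunLike.coe_injective
    have := congrArg (fun f : CuspForm (Gamma0 N') 2 => (⇑f : UpperHalfPlane → ℂ)) h1
    exact this
  obtain ⟨g', hg', h'⟩ := NEW.exists_normalized N' (fun ℓ => ℓ.Prime ∧ ¬ ℓ ∣ N')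
    (fun ℓ => qCoeff g ℓ) (inclForm h g) h0 (by
      intro ℓ hℓ
      have hℓ0 : ¬ ℓ ∣ N₀ := fun h2 => hℓ.2 (h2.trans h)
      have h1 := S29.heckeFam_apply hg ℓ
      rw [S29.eigC, if_pos ⟨hℓ.1, hℓ0⟩, S31.heckeFam, dif_pos ⟨hℓ.1, hℓ0⟩] at h1
      rw [S31.heckeFam, dif_pos hℓ]
      apply DFunLike.coe_injective
      have h2 := congrArg (fun f : CuspForm (Gamma0 N₀) 2 => (⇑f : UpperHalfPlane → ℂ)) h1
      exact h2)
  exact ⟨g', hg', fun ℓ hℓ hℓN => h' ℓ hℓ hℓN ⟨hℓ, hℓN⟩⟩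

/-- RAISE. -/
theorem raise {M M' : ℕ} (hdvd : M ∣ M') (hsq : Squarefree M')
    {g : CuspForm (CongruenceSubgroup.Gamma0 M) 2} (hg : g.IsNormalizedEigenform) :
    ∃ h : CuspForm (CongruenceSubgroup.Gamma0 M') 2, h.IsNormalizedEigenform ∧
      ∀ ℓ : ℕ, ℓ.Prime → ¬ ℓ ∣ M' → qCoeff h ℓ = qCoeff g ℓ := by
  have hM' : M' ≠ 0 := hsq.ne_zero
  have hM : M ≠ 0 := by
    rintro rfl
    exact hM' (Nat.eq_zero_of_zero_dvd hdvd)
  haveI : NeZero M := ⟨hM⟩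
  haveI : NeZero M' := ⟨hM'⟩
  exact exists_raise hdvd hg

end Fermat.Agent.S58
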